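import Mathlib
import Fermat.Prelude.Def_ModularCurve_X0

set_option autoImplicit false

/-!
# S16, section (D'): the integral `q`-series of the level-3 argument

* `bZ = ∑_{n ≥ 1} σ'₃(n) qⁿ` (`σ'₃(n) = ∑_{d ∣ n, 3 ∤ d} d`), so that `BZ = 1 + 12 bZ` is the
  `q`-expansion of `B = (3 E₂(3z) - E₂(z)) / 2 ∈ M₂(Γ₀(3))`;
* `S3Z = ∑ σ₃(n) qⁿ`, `ModularCurve.eisenstein4 = 1 + 240 S3Z`; `E6Z`; `DeltaZ = q ∏ (1 - qⁿ)²⁴`;
* `I3Series` : the identity `110592 Δ B² = (9B² - E₄)³ (E₄ - B²)` of integral power series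
  (a `Prop`; it is PROVED in `Two/Level3.lean`, and CONSUMED as a hypothesis in `Two/Series.lean`).
-/

namespace Fermat.Agent.S16.Two

open PowerSeries

noncomputable section

/-- `σ'₃(n)`: the sum of the divisors of `n` prime to `3`. -/
def sig3 (n : ℕ) : ℕ := ∑ d ∈ n.divisors with ¬ 3 ∣ d, d

/-- `b = ∑_{n ≥ 1} σ'₃(n) qⁿ`. -/
def bZ : PowerSeries ℤ := PowerSeries.mk fun n => if n = 0 then 0 else (sig3 n : ℤ)

/-- the `q`-expansion `1 + 12 b` of `B = 12 E*₃`. -/
def BZ : PowerSeries ℤ := 1 + 12 * bZ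

/-- `∑_{n ≥ 1} σ₃(n) qⁿ`. -/
def S3Z : PowerSeries ℤ :=
  PowerSeries.mk fun n => if n = 0 then 0 else ∑ d ∈ n.divisors, (d : ℤ) ^ 3

/-- the `q`-expansion of `E₆`. -/
def E6Z : PowerSeries ℤ :=
  PowerSeries.mk fun n => if n = 0 then 1 else -504 * ∑ d ∈ n.divisors, (d : ℤ) ^ 5

/-- the `q`-expansion of `Δ`. -/
def DeltaZ : PowerSeries ℤ := X * ModularCurve.dedekindEtaUnit

/-- `C = (9B² - E₄)/8`. -/
def CZ : PowerSeries ℤ := 1 + 27 * bZ + 162 * bZ ^ 2 - 30 * S3Z

/-- `D = (E₄ - B²)/8`. -/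
def DZ : PowerSeries ℤ := 30 * S3Z - 3 * bZ - 18 * bZ ^ 2

/-- the level-3 identity `110592 Δ B² = (9B² - E₄)³ (E₄ - B²)` as an identity of integral
power series. -/
def I3Series : Prop :=
  110592 * DeltaZ * BZ ^ 2 =
    (9 * BZ ^ 2 - ModularCurve.eisenstein4) ^ 3 * (ModularCurve.eisenstein4 - BZ ^ 2)

theorem sig3_one : sig3 1 = 1 := by decide

theorem sig3_two : sig3 2 = 3 := by decide

theorem coeff_bZ (n : ℕ) : coeff n bZ = if n = 0 then 0 else (sig3 n : ℤ) := by
  rw [bZ, coeff_mk]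

@[simp] theorem constantCoeff_bZ : constantCoeff bZ = 0 := by
  rw [← coeff_zero_eq_constantCoeff_apply, coeff_bZ, if_pos rfl]

theorem coeff_one_bZ : coeff 1 bZ = 1 := by
  rw [coeff_bZ, if_neg one_ne_zero, sig3_one]; rfl

theorem eisenstein4_eq : ModularCurve.eisenstein4 = 1 + 240 * S3Z := by
  ext n
  rw [ModularCurve.eisenstein4, S3Z, coeff_mk, map_add, coeff_one,
    show (240 : PowerSeries ℤ) = C (240 : ℤ) from rfl, coeff_C_mul, coeff_mk]
  by_cases hn : n = 0
  · simp [hn]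
  · simp [hn]

theorem nine_BZ_sq_sub : 9 * BZ ^ 2 - ModularCurve.eisenstein4 = 8 * CZ := by
  rw [eisenstein4_eq, BZ, CZ]; ring

theorem eisenstein4_sub_BZ_sq : ModularCurve.eisenstein4 - BZ ^ 2 = 8 * DZ := by
  rw [eisenstein4_eq, BZ, DZ]; ring

/-- The identity in the reduced form `27 Δ B² = C³ D`. -/
theorem I3Series.reduced (h : I3Series) : 27 * DeltaZ * BZ ^ 2 = CZ ^ 3 * DZ := by
  unfold I3Series at h
  rw [nine_BZ_sq_sub, eisenstein4_sub_BZ_sq] at h
  have h4096 : (4096 : PowerSeries ℤ) ≠ 0 := by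
    rw [show (4096 : PowerSeries ℤ) = C (4096 : ℤ) from rfl]
    intro h0
    have := congrArg constantCoeff h0
    rw [constantCoeff_C, map_zero] at this
    norm_num at this
  apply mul_left_cancel₀ h4096
  linear_combination h

/-- reduction mod 2 of an integral power series -/
abbrev red2 : PowerSeries ℤ →+* PowerSeries (ZMod 2) := PowerSeries.map (Int.castRingHom (ZMod 2))

/-- `b̄ ∈ 𝔽₂[[q]]` -/
def bbar : PowerSeries (ZMod 2) := red2 bZ

@[simp] theorem constantCoeff_bbar : constantCoeff bbar = 0 := by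
  rw [bbar, ← coeff_zero_eq_constantCoeff_apply, coeff_map, coeff_zero_eq_constantCoeff_apply,
    constantCoeff_bZ, map_zero]

theorem coeff_one_bbar : coeff 1 bbar = 1 := by
  rw [bbar, coeff_map, coeff_one_bZ, map_one]

theorem bbar_ne_zero : bbar ≠ 0 := by
  intro h
  have := congrArg (coeff 1) h
  rw [coeff_one_bbar, map_zero] at this
  exact one_ne_zero this

theorem red2_ofNat_even (n : ℕ) (hn : Even n) : red2 (n : PowerSeries ℤ) = 0 := by
  rw [map_natCast]
  obtain ⟨m, rfl⟩ := hn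
  have : ((m + m : ℕ) : ZMod 2) = 0 := by
    rw [← two_mul, Nat.cast_mul]
    have : ((2 : ℕ) : ZMod 2) = 0 := by decide
    rw [this, zero_mul]
  rw [show ((m + m : ℕ) : PowerSeries (ZMod 2)) = C ((m + m : ℕ) : ZMod 2) by simp, this, map_zero]

/-- `Δ̄ = b̄ (1 + b̄)³` in `𝔽₂[[q]]`. -/
theorem I3Series.deltaBar (h : I3Series) : red2 DeltaZ = bbar * (1 + bbar) ^ 3 := by
  have h1 := congrArg red2 h.reduced
  have e27 : red2 (27 : PowerSeries ℤ) = 1 := by
    have : (27 : PowerSeries ℤ) = 1 + ((26 : ℕ) : PowerSeries ℤ) := by norm_num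
    rw [this, map_add, map_one, red2_ofNat_even 26 (by decide), add_zero]
  have e12 : red2 (12 : PowerSeries ℤ) = 0 := by
    have := red2_ofNat_even 12 (by decide); simpa using this
  have e162 : red2 (162 : PowerSeries ℤ) = 0 := by
    have := red2_ofNat_even 162 (by decide); simpa using this
  have e30 : red2 (30 : PowerSeries ℤ) = 0 := by
    have := red2_ofNat_even 30 (by decide); simpa using this
  have e18 : red2 (18 : PowerSeries ℤ) = 0 := by
    have := red2_ofNat_even 18 (by decide); simpa using this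
  have e3 : red2 (3 : PowerSeries ℤ) = 1 := by
    have : (3 : PowerSeries ℤ) = 1 + ((2 : ℕ) : PowerSeries ℤ) := by norm_num
    rw [this, map_add, map_one, red2_ofNat_even 2 (by decide), add_zero]
  have hB : red2 BZ = 1 := by
    rw [BZ, map_add, map_one, map_mul, e12, zero_mul, add_zero]
  have hC : red2 CZ = 1 + bbar := by
    rw [CZ, map_sub, map_add, map_add, map_one, map_mul, map_mul, map_mul, e27, e162, e30]
    simp [bbar]
  have hD : red2 DZ = bbar := by
    rw [DZ, map_sub, map_sub, map_mul, map_mul, map_mul, e30, e3, e18]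
    have hneg : ∀ x : PowerSeries (ZMod 2), -x = x := by
      intro x
      have h2 : (2 : PowerSeries (ZMod 2)) = 0 := by
        have := red2_ofNat_even 2 (by decide)
        rw [map_natCast] at this
        exact_mod_cast this
      have : x + x = 0 := by rw [← two_mul, h2, zero_mul]
      exact neg_eq_of_add_eq_zero_left this
    simp [bbar, sub_eq_add_neg, hneg]
  rw [map_mul, map_mul, map_pow, map_mul, map_pow, e27, hB, hC, hD] at h1
  rw [mul_comm bbar]
  simpa using h1

end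

end Fermat.Agent.S16.Two
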