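/-
S16, section (D'), `Two/Reps.lean` (helper5; shapes of board #805): the `q`-expansion ("Rep") facts
for the level-3 argument: `B3 = 12 E*_3`, `E₄`, `E₆`, `Δ`, `q/Δ` are represented on `ℍ` by the
integral power series `BZ`, `eisenstein4`, `E6Z`, `DeltaZ`, `dedekindEtaUnitInv` of `Two/Defs.lean`,
and a `Rep 1` of a modular form IS its `q`-expansion.
-/
import Mathlib
import Fermat.Agent.S16.Two.Defs
import Fermat.Agent.S16.Estar
import Fermat.Agent.S24.JPoly
import Fermat.Agent.S24.EtaBridge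

set_option autoImplicit false

namespace Fermat.Agent.S16.Two

open UpperHalfPlane ModularForm EisensteinSeries CongruenceSubgroup Function
open Fermat.Agent.S24.JPoly
open Fermat.Agent.S24.EtaBridge (toC)
open Fermat.Agent.S20 (IsMF)
open scoped MatrixGroups

noncomputable section

/-! ### generalities -/

theorem toC_injective : Function.Injective toC := by
  intro P Q h
  ext n
  have := congrArg (PowerSeries.coeff n) h
  simpa [toC] using this

theorem norm_qq_one_lt_one (z : ℍ) : ‖qq 1 z‖ < 1 := norm_qq_lt_one 1 z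

/-- a `HasSum` in the Mathlib shape (`c n • 𝕢 1 z ^ n`) is a `Rep 1`. -/
theorem rep_of_hasSum {P : PowerSeries ℂ} {f : ℍ → ℂ}
    (h : ∀ z : ℍ, HasSum (fun n : ℕ => PowerSeries.coeff n P • Periodic.qParam 1 (z : ℂ) ^ n) (f z)) :
    Rep 1 P f := fun z => by
  have := h z
  simp only [smul_eq_mul] at this
  rw [qq_one]
  exact this

/-- a `Rep 1` of a modular form is its `q`-expansion. -/
theorem qExpansion_eq_of_rep {N : ℕ} [NeZero N] {k : ℤ} {f : ℍ → ℂ} (hf : IsMF N k f)
    {P : PowerSeries ℂ} (h : Rep 1 P f) : UpperHalfPlane.qExpansion 1 f = P := by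
  have h1 : Rep 1 (UpperHalfPlane.qExpansion 1 f) f := fun z => by
    have := ModularForm.hasSum_qExpansion (f := hf.toMF) one_pos
      (CongruenceSubgroup.one_mem_strictPeriods_Gamma0 N) z
    rw [qq_one]
    exact this
  exact h1.unique h

/-- bundled variant -/
theorem qExpansion_toMF_eq_of_rep {N : ℕ} [NeZero N] {k : ℤ} {f : ℍ → ℂ} (hf : IsMF N k f)
    {P : PowerSeries ℂ} (h : Rep 1 P f) : UpperHalfPlane.qExpansion 1 (⇑hf.toMF) = P :=
  qExpansion_eq_of_rep hf h

theorem qCoeff_eq_of_rep {N : ℕ} [NeZero N] {k : ℤ} {f : ℍ → ℂ} (hf : IsMF N k f)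
    {P : PowerSeries ℂ} (h : Rep 1 P f) (n : ℕ) :
    ModularFormClass.qCoeff f n = PowerSeries.coeff n P := by
  unfold ModularFormClass.qCoeff
  rw [qExpansion_eq_of_rep hf h]

/-- a modular form is represented by its `q`-expansion. -/
theorem rep_qExpansion {N : ℕ} [NeZero N] {k : ℤ} {f : ℍ → ℂ} (hf : IsMF N k f) :
    Rep 1 (UpperHalfPlane.qExpansion 1 f) f := fun z => by
  have := ModularForm.hasSum_qExpansion (f := hf.toMF) one_pos
    (CongruenceSubgroup.one_mem_strictPeriods_Gamma0 N) z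
  rw [qq_one]
  exact this

/-- a modular form with integral `q`-coefficients `a n` is represented by `toC (mk a)`. -/
theorem rep_of_qCoeff {N : ℕ} [NeZero N] {k : ℤ} {f : ℍ → ℂ} (hf : IsMF N k f) (a : ℕ → ℤ)
    (ha : ∀ n, ModularFormClass.qCoeff f n = (a n : ℂ)) :
    Rep 1 (toC (PowerSeries.mk a)) f := by
  have h := rep_qExpansion hf
  have e : UpperHalfPlane.qExpansion 1 f = toC (PowerSeries.mk a) := by
    ext n
    have := ha n
    unfold ModularFormClass.qCoeff at this
    rw [this, toC, PowerSeries.coeff_map, PowerSeries.coeff_mk]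
    simp
  rwa [e] at h

/-! ### `B = 12 E*_3` -/

/-- `B = (3 E₂(3z) - E₂(z))/2 = 12 E*_3 ∈ M₂(Γ₀(3))`. -/
def B3 : ℍ → ℂ := fun z => 12 * Estar.EstarMF 3 z

theorem isMF_B3 : IsMF 3 2 B3 :=
  (Fermat.Agent.S20.isMF_coe (Estar.EstarMF 3)).smul (12 : ℂ)

theorem coeff_BZ_reps (n : ℕ) :
    PowerSeries.coeff n BZ = if n = 0 then 1 else 12 * (sig3 n : ℤ) := by
  rw [BZ, map_add, PowerSeries.coeff_one, show (12 : PowerSeries ℤ) = PowerSeries.C (12 : ℤ) from rfl,
    PowerSeries.coeff_C_mul, coeff_bZ]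
  by_cases hn : n = 0
  · simp [hn]
  · simp [hn]

theorem rep_B3 : Rep 1 (toC BZ) B3 := by
  refine rep_of_hasSum fun z => ?_
  have h := (Estar.hasSum_EstarMF 3 z).mul_left (12 : ℂ)
  refine h.congr_fun fun n => ?_
  simp only [smul_eq_mul, toC, PowerSeries.coeff_map, coeff_BZ_reps, Estar.estarCoeff]
  by_cases hn : n = 0
  · subst hn
    simp
    norm_num
  · rw [if_neg hn, if_neg hn]
    have : Estar.sigmaPrime 3 n = sig3 n := rfl
    rw [this]
    simp only [eq_intCast]
    push_cast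
    ring

/-! ### `E₄`, `E₆` -/

theorem rep_E4 : Rep 1 (toC ModularCurve.eisenstein4) (fun z => E₄ z) := by
  have := rep_qExpansion (Fermat.Agent.S20.isMF_E4.of_levelOne (N := 1))
  rwa [Fermat.Agent.S24.EtaBridge.qExpansion_E4] at this

theorem qExpansion_E6 : UpperHalfPlane.qExpansion 1 E₆ = toC E6Z := by
  ext m
  rw [E_qExpansion_coeff (by norm_num : 3 ≤ 6) ⟨3, rfl⟩ m, toC, PowerSeries.coeff_map,
    E6Z, PowerSeries.coeff_mk]
  by_cases hm : m = 0
  · simp [hm]
  · rw [if_neg hm, if_neg hm, show bernoulli 6 = 1 / 42 by decide +kernel,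
      ArithmeticFunction.sigma_apply]
    simp only [eq_intCast]
    push_cast
    ring

theorem rep_E6 : Rep 1 (toC E6Z) (fun z => E₆ z) := by
  have := rep_qExpansion (Fermat.Agent.S20.isMF_E6.of_levelOne (N := 1))
  rwa [qExpansion_E6] at this

/-! ### `Δ` and `q/Δ` -/

theorem discriminant_eq_qq_mul (z : ℍ) :
    ModularForm.discriminant z =
      qq 1 z * Fermat.Agent.S24.EtaBridge.etaFun (qq 1 z) ^ 24 := by
  have h2 := discriminant_eq_q_prod z
  have hq : ‖Periodic.qParam 1 (z : ℂ)‖ < 1 :=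
    Periodic.norm_qParam_lt_one one_pos z.im_pos
  have h3 : ∏' n : ℕ, (1 - eta_q n ↑z) ^ 24 =
      Fermat.Agent.S24.EtaBridge.etaFun (Periodic.qParam 1 z) ^ 24 := by
    unfold Fermat.Agent.S24.EtaBridge.etaFun
    exact (ModularForm.multipliable_one_sub_pow hq).tprod_pow 24
  rw [qq_one, h2, h3]

theorem rep_etaUnit :
    Rep 1 (toC ModularCurve.dedekindEtaUnit)
      (fun z => Fermat.Agent.S24.EtaBridge.etaFun (qq 1 z) ^ 24) := fun z =>
  Fermat.Agent.S24.EtaBridge.rep_dedekindEtaUnit _ (norm_qq_one_lt_one z)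

theorem rep_Delta : Rep 1 (toC DeltaZ) (fun z => ModularForm.discriminant z) := by
  have h := (Rep.X (N := 1)).mul rep_etaUnit
  have e : toC DeltaZ = PowerSeries.X * toC ModularCurve.dedekindEtaUnit := by
    rw [DeltaZ, toC, toC, map_mul, PowerSeries.map_X]
  rw [e]
  exact h.congr fun z => (discriminant_eq_qq_mul z).symm

theorem rep_q_div_Delta :
    Rep 1 (toC ModularCurve.dedekindEtaUnitInv)
      (fun z => qq 1 z / ModularForm.discriminant z) := by
  have h : Rep 1 (toC ModularCurve.dedekindEtaUnitInv)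
      (fun z => (Fermat.Agent.S24.EtaBridge.etaFun (qq 1 z) ^ 24)⁻¹) := fun z =>
    Fermat.Agent.S24.EtaBridge.rep_dedekindEtaUnitInv _ (norm_qq_one_lt_one z)
  refine h.congr fun z => ?_
  have hq0 : qq 1 z ≠ 0 := qq_ne_zero 1 z
  have he : Fermat.Agent.S24.EtaBridge.etaFun (qq 1 z) ^ 24 ≠ 0 :=
    pow_ne_zero _ (Fermat.Agent.S24.EtaBridge.etaFun_ne_zero (norm_qq_one_lt_one z))
  rw [discriminant_eq_qq_mul z]
  field_simp

end

end Fermat.Agent.S16.Two
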