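import Mathlib
import Fermat.Prelude.Thm_ModularForm_sturm_bound_Gamma0
import Fermat.Agent.S20.Psi
import Fermat.Agent.S16.Two.Reps

set_option autoImplicit false

/-!
# S16, section (D'): the level-3 identities

* `R3` : `E₄² + 18 B² E₄ + 8 B E₆ = 27 B⁴` on `ℍ` (`B = (3E₂(3z) - E₂(z))/2`), by the Sturm bound for
  `Γ₀(3)` in weight `8` (three coefficients);
* `I3` : `110592 Δ B² = (9B² - E₄)³ (E₄ - B²)` (ring algebra from `R3` and `1728 Δ = E₄³ - E₆²`);
* `i3Series : I3Series` : the same identity for the integral `q`-expansions.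
-/

namespace Fermat.Agent.S16.Two

open UpperHalfPlane ModularForm EisensteinSeries CongruenceSubgroup PowerSeries
open Fermat.Agent.S20
open Fermat.Agent.S24.JPoly (qq Rep)
open Fermat.Agent.S24.EtaBridge (toC)
open scoped MatrixGroups

noncomputable section

/-! ### the first three coefficients of a product -/

theorem coeff_zero_mul' (P Q : PowerSeries ℤ) : coeff 0 (P * Q) = coeff 0 P * coeff 0 Q := by
  simp [PowerSeries.coeff_mul]

theorem coeff_one_mul' (P Q : PowerSeries ℤ) :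
    coeff 1 (P * Q) = coeff 0 P * coeff 1 Q + coeff 1 P * coeff 0 Q := by
  rw [PowerSeries.coeff_mul]
  simp [Finset.Nat.antidiagonal_succ]

theorem coeff_two_mul' (P Q : PowerSeries ℤ) :
    coeff 2 (P * Q) = coeff 0 P * coeff 2 Q + coeff 1 P * coeff 1 Q + coeff 2 P * coeff 0 Q := by
  rw [PowerSeries.coeff_mul]
  simp [Finset.Nat.antidiagonal_succ]
  ring

/-! ### the first three coefficients of the basic series -/

theorem divisors_two : Nat.divisors 2 = {1, 2} := by decide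

theorem sig3_two' : sig3 2 = 3 := sig3_two

theorem coeff_E4 : coeff 0 ModularCurve.eisenstein4 = 1 ∧ coeff 1 ModularCurve.eisenstein4 = 240 ∧
    coeff 2 ModularCurve.eisenstein4 = 2160 := by
  refine ⟨?_, ?_, ?_⟩
  · simp [ModularCurve.eisenstein4]
  · simp [ModularCurve.eisenstein4]
  · simp [ModularCurve.eisenstein4, divisors_two]

theorem coeff_E6 : coeff 0 E6Z = 1 ∧ coeff 1 E6Z = -504 ∧ coeff 2 E6Z = -16632 := by
  refine ⟨?_, ?_, ?_⟩
  · simp [E6Z]
  · simp [E6Z]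
  · simp [E6Z, divisors_two]

theorem coeff_BZ : coeff 0 BZ = 1 ∧ coeff 1 BZ = 12 ∧ coeff 2 BZ = 36 := by
  have h12 : (12 : PowerSeries ℤ) = C (12 : ℤ) := rfl
  refine ⟨?_, ?_, ?_⟩
  · rw [BZ, map_add, h12, coeff_C_mul, coeff_bZ]; simp
  · rw [BZ, map_add, h12, coeff_C_mul, coeff_bZ, if_neg one_ne_zero, sig3_one]; simp
  · rw [BZ, map_add, h12, coeff_C_mul, coeff_bZ, if_neg two_ne_zero, sig3_two]; simp

/-- the `q`-expansion of `E₄² + 18 B² E₄ + 8 B E₆ - 27 B⁴` -/
def R3Z : PowerSeries ℤ :=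
  ModularCurve.eisenstein4 * ModularCurve.eisenstein4
    + C (18 : ℤ) * (BZ * BZ * ModularCurve.eisenstein4)
    + C (8 : ℤ) * (BZ * E6Z) - C (27 : ℤ) * (BZ * BZ * (BZ * BZ))

theorem coeff_R3Z : coeff 0 R3Z = 0 ∧ coeff 1 R3Z = 0 ∧ coeff 2 R3Z = 0 := by
  obtain ⟨a0, a1, a2⟩ := coeff_E4
  obtain ⟨b0, b1, b2⟩ := coeff_E6
  obtain ⟨c0, c1, c2⟩ := coeff_BZ
  refine ⟨?_, ?_, ?_⟩
  · simp only [R3Z, map_add, map_sub, coeff_C_mul, coeff_zero_mul', a0, b0, c0]
    norm_num
  · simp only [R3Z, map_add, map_sub, coeff_C_mul, coeff_zero_mul', coeff_one_mul',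
      a0, b0, c0, a1, b1, c1]
    norm_num
  · simp only [R3Z, map_add, map_sub, coeff_C_mul, coeff_zero_mul', coeff_one_mul',
      coeff_two_mul', a0, b0, c0, a1, b1, c1, a2, b2, c2]
    norm_num

/-! ### the modular form and the Sturm bound -/

/-- `E₄² + 18 B² E₄ + 8 B E₆ - 27 B⁴` -/
def R3fun : ℍ → ℂ := fun z =>
  E₄ z * E₄ z + 18 * (B3 z * B3 z * E₄ z) + 8 * (B3 z * E₆ z) - 27 * (B3 z * B3 z * (B3 z * B3 z))

theorem isMF_R3fun : IsMF 3 8 R3fun := by
  have e4 : IsMF 3 4 (⇑E₄) := isMF_E4.of_levelOne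
  have e6 : IsMF 3 6 (⇑E₆) := isMF_E6.of_levelOne
  have hB := isMF_B3
  have h1 : IsMF 3 8 (⇑E₄ * ⇑E₄) := by
    have := e4.mul e4; norm_num at this; exact this
  have h2 : IsMF 3 8 (B3 * B3 * ⇑E₄) := by
    have := (hB.mul hB).mul e4; norm_num at this; exact this
  have h3 : IsMF 3 8 (B3 * ⇑E₆) := by
    have := hB.mul e6; norm_num at this; exact this
  have h4 : IsMF 3 8 (B3 * B3 * (B3 * B3)) := by
    have := (hB.mul hB).mul (hB.mul hB); norm_num at this; exact this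
  have := ((h1.add (h2.smul 18)).add (h3.smul 8)).add (h4.smul (-27))
  convert this using 1
  ext z
  simp only [R3fun, Pi.add_apply, Pi.mul_apply, Pi.smul_apply, smul_eq_mul]
  ring

theorem rep_R3fun : Rep 1 (toC R3Z) R3fun := by
  have hE4 := rep_E4
  have hE6 := rep_E6
  have hB := rep_B3
  have h1 := hE4.mul hE4
  have h2 := ((hB.mul hB).mul hE4).const_mul 18
  have h3 := (hB.mul hE6).const_mul 8
  have h4 := ((hB.mul hB).mul (hB.mul hB)).const_mul 27
  have := ((h1.add h2).add h3).sub h4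
  have hser : toC R3Z = toC ModularCurve.eisenstein4 * toC ModularCurve.eisenstein4
      + C (18 : ℂ) * (toC BZ * toC BZ * toC ModularCurve.eisenstein4)
      + C (8 : ℂ) * (toC BZ * toC E6Z) - C (27 : ℂ) * (toC BZ * toC BZ * (toC BZ * toC BZ)) := by
    simp only [R3Z, toC, map_add, map_sub, map_mul, PowerSeries.map_C]
    simp
  rw [hser]
  exact this.congr fun z => rfl

theorem index_Gamma0_three : (Gamma0 3).index = 4 := by
  rw [index_Gamma0 3 (by norm_num)]
  have := dedekindPsi_mul_prime_of_not_dvd (M := 1) one_ne_zero Nat.prime_three (by norm_num)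
  rw [one_mul, ModularCurve.dedekindPsi_one] at this
  exact this

theorem R3fun_eq_zero (z : ℍ) : R3fun z = 0 := by
  have hF : isMF_R3fun.toMF = 0 := by
    apply ModularForm.sturm_bound_Gamma0 3
    intro n hn
    rw [index_Gamma0_three] at hn
    have hn2 : n ≤ 2 := by
      have : ((8 : ℤ) * ((4 : ℕ) : ℤ)).toNat / 12 = 2 := by decide
      omega
    have hq : qExpansion 1 (⇑isMF_R3fun.toMF) = toC R3Z :=
      qExpansion_eq_of_rep isMF_R3fun rep_R3fun
    rw [hq, toC, PowerSeries.coeff_map]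
    obtain ⟨r0, r1, r2⟩ := coeff_R3Z
    interval_cases n
    · rw [r0, map_zero]
    · rw [r1, map_zero]
    · rw [r2, map_zero]
  have := DFunLike.congr_fun hF z
  simpa using this

/-- **(R3)** -/
theorem R3 (z : ℍ) :
    E₄ z ^ 2 + 18 * B3 z ^ 2 * E₄ z + 8 * B3 z * E₆ z = 27 * B3 z ^ 4 := by
  have := R3fun_eq_zero z
  simp only [R3fun] at this
  linear_combination this

/-- **(I3)** -/
theorem I3 (z : ℍ) :
    110592 * ModularForm.discriminant z * B3 z ^ 2 =
      (9 * B3 z ^ 2 - E₄ z) ^ 3 * (E₄ z - B3 z ^ 2) := by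
  have hR := R3 z
  have hΔ := ModularForm.discriminant_eq_E₄_cube_sub_E₆_sq z
  rw [hΔ]
  -- `8 B E₆ = 27 B⁴ - E₄² - 18 B² E₄`
  have h8 : 8 * B3 z * E₆ z = 27 * B3 z ^ 4 - E₄ z ^ 2 - 18 * B3 z ^ 2 * E₄ z := by
    linear_combination hR
  have hsq : 64 * B3 z ^ 2 * E₆ z ^ 2 = (27 * B3 z ^ 4 - E₄ z ^ 2 - 18 * B3 z ^ 2 * E₄ z) ^ 2 := by
    rw [← h8]; ring
  linear_combination (-1 : ℂ) * hsq

/-- **(I3) for the integral `q`-expansions.** -/
theorem i3Series : I3Series := by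
  have hL := (rep_Delta.mul (rep_B3.pow 2)).const_mul 110592
  have hR := ((((rep_B3.pow 2).const_mul 9).sub rep_E4).pow 3).mul (rep_E4.sub (rep_B3.pow 2))
  have hL' : Rep 1 (C (110592 : ℂ) * (toC DeltaZ * toC BZ ^ 2))
      (fun z => (9 * B3 z ^ 2 - E₄ z) ^ 3 * (E₄ z - B3 z ^ 2)) :=
    hL.congr fun z => by
      have := I3 z
      show 110592 * (ModularForm.discriminant z * B3 z ^ 2) = _
      rw [← this]; ring
  have hR' : Rep 1 ((C (9 : ℂ) * toC BZ ^ 2 - toC ModularCurve.eisenstein4) ^ 3 *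
      (toC ModularCurve.eisenstein4 - toC BZ ^ 2))
      (fun z => (9 * B3 z ^ 2 - E₄ z) ^ 3 * (E₄ z - B3 z ^ 2)) :=
    hR.congr fun z => rfl
  have huniq := hL'.unique hR'
  unfold I3Series
  apply toC_injective
  have e1 : toC (110592 * DeltaZ * BZ ^ 2) = C (110592 : ℂ) * (toC DeltaZ * toC BZ ^ 2) := by
    rw [show (110592 : PowerSeries ℤ) = C (110592 : ℤ) from rfl]
    simp only [toC, map_mul, map_pow, PowerSeries.map_C, mul_assoc]
    simp
  have e2 : toC ((9 * BZ ^ 2 - ModularCurve.eisenstein4) ^ 3 * (ModularCurve.eisenstein4 - BZ ^ 2))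
      = (C (9 : ℂ) * toC BZ ^ 2 - toC ModularCurve.eisenstein4) ^ 3 *
        (toC ModularCurve.eisenstein4 - toC BZ ^ 2) := by
    rw [show (9 : PowerSeries ℤ) = C (9 : ℤ) from rfl]
    simp only [toC, map_mul, map_pow, map_sub, PowerSeries.map_C]
    simp
  rw [e1, e2]
  exact huniq

end

end Fermat.Agent.S16.Two
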