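import Mathlib
import Fermat.Agent.S16.Bridge.Chart
import Fermat.Agent.S16.ChartQExpInt
import Fermat.Agent.S24.EtaBridge

set_option autoImplicit false

/-!
# S16 (D'), component 4a: `s ^ 6 / Δ` lands in the chart ring

Let `N` be odd and `s` a modular form of weight `2` on `Γ₀(N)` whose `q`-expansion `sZ` has integer
coefficients.  Then `x = s ^ 6 / Δ` is a `Γ₀(N)`-modular function, holomorphic on `ℍ`, with
`q`-expansion `q⁻¹ · sZ ^ 6 · (Δ / q)⁻¹ ∈ q⁻¹ ℤ[[q]]`; by the bridge (`Bridge.Chart`) it lies in the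
chart ring at `2`, and by `ChartQExpInt.ρB_isIntegral` its reduction mod `2` is integral over
`𝔽₂[j̄]`.

* `rep_of_qCoeff`: a modular form is represented by the power series of its `qCoeff`s;
* `rep_q_div_disc`: `q / Δ = dedekindEtaUnitInv (q)`;
* `isModFun_sixth`: `s ^ 6 / Δ` is `IsModFun N`;
* `isIntegral_serR_of_isMF`: the integrality statement.
-/

namespace Fermat.Agent.S16.Two.ChartSixth

open UpperHalfPlane ModularCurve ModularCurve.IgusaScheme
open Fermat.Agent.S16.Bridge Fermat.Agent.S16.Bridge.Chart Fermat.Agent.S16.ChartQExp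
open Fermat.Agent.S24.JPoly (qq Rep)
open Fermat.Agent.S24.EtaBridge (toC)
open scoped MatrixGroups Manifold ModularForm

noncomputable section

/-- a modular form on `Γ₀(N)` is represented by its `q`-expansion at level one. -/
theorem rep_qExpansion {N : ℕ} [NeZero N] {k : ℤ} {G : ℍ → ℂ} (hG : Fermat.Agent.S20.IsMF N k G) :
    Rep 1 (UpperHalfPlane.qExpansion 1 G) G := fun z => by
  have h := ModularForm.hasSum_qExpansion (f := hG.toMF) one_pos
    (CongruenceSubgroup.one_mem_strictPeriods_Gamma0 N) z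
  simpa [qq] using h

/-- a modular form on `Γ₀(N)` with integer `qCoeff`s `a n` is represented by `∑ a n qⁿ`. -/
theorem rep_of_qCoeff {N : ℕ} [NeZero N] {k : ℤ} {G : ℍ → ℂ} (hG : Fermat.Agent.S20.IsMF N k G)
    (a : ℕ → ℤ) (ha : ∀ n, ModularFormClass.qCoeff G n = (a n : ℂ)) :
    Rep 1 (toC (PowerSeries.mk a)) G := by
  have e : toC (PowerSeries.mk a) = UpperHalfPlane.qExpansion 1 G := by
    ext n
    rw [toC, PowerSeries.coeff_map, PowerSeries.coeff_mk]
    exact (ha n).symm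
  rw [e]
  exact rep_qExpansion hG

/-- `q / Δ(z) = (∏ (1 - qⁿ)²⁴)⁻¹`, as a power series in `q`: the Prelude series
`dedekindEtaUnitInv`. -/
theorem rep_q_div_disc :
    Rep 1 (toC ModularCurve.dedekindEtaUnitInv)
      (fun z => qq 1 z / ModularForm.discriminant z) := fun z => by
  have hq : ‖Function.Periodic.qParam 1 (z : ℂ)‖ < 1 :=
    Function.Periodic.norm_qParam_lt_one one_pos z.im_pos
  have h := Fermat.Agent.S24.EtaBridge.rep_dedekindEtaUnitInv _ hq
  have h2 := ModularForm.discriminant_eq_q_prod z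
  have h3 : ∏' n : ℕ, (1 - ModularForm.eta_q n ↑z) ^ 24 =
      Fermat.Agent.S24.EtaBridge.etaFun (Function.Periodic.qParam 1 z) ^ 24 := by
    unfold Fermat.Agent.S24.EtaBridge.etaFun
    exact (ModularForm.multipliable_one_sub_pow hq).tprod_pow 24
  have hq0 : Function.Periodic.qParam 1 (z : ℂ) ≠ 0 := Function.Periodic.qParam_ne_zero _
  have he : Fermat.Agent.S24.EtaBridge.etaFun (Function.Periodic.qParam 1 z) ^ 24 ≠ 0 :=
    pow_ne_zero _ (Fermat.Agent.S24.EtaBridge.etaFun_ne_zero hq)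
  have e : qq 1 z / ModularForm.discriminant z =
      (Fermat.Agent.S24.EtaBridge.etaFun (Function.Periodic.qParam 1 z) ^ 24)⁻¹ := by
    rw [h2, h3, Fermat.Agent.S24.JPoly.qq_one]
    field_simp
  show HasSum _ (qq 1 z / ModularForm.discriminant z)
  rw [e]
  simpa [Fermat.Agent.S24.JPoly.qq_one] using h

/-- `s ^ 6 / Δ` is a `Γ₀(N)`-modular function, holomorphic on `ℍ`, with finite-order poles at the
cusps. -/
theorem isModFun_sixth {N : ℕ} [NeZero N] {s : ℍ → ℂ} (hs : Fermat.Agent.S20.IsMF N 2 s) :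
    IsModFun N (fun z => s z ^ 6 / ModularForm.discriminant z) := by
  have h1 : IsWMF N 12 (s ^ 6) := by
    have := (IsMF.isWMF hs).pow 6
    norm_num at this
    exact this
  have h2 : IsWMF N 12 ModularForm.discriminant :=
    IsMF.isWMF (Fermat.Agent.S20.isCF_delta.isMF.of_levelOne)
  exact isModFun_div h1 h2 ModularForm.discriminant_ne_zero

/-- the `q`-expansion of `(s ^ 6 / Δ) · q`. -/
theorem rep_sixth {s : ℍ → ℂ} (sZ : PowerSeries ℤ) (hrep : Rep 1 (toC sZ) s) :
    Rep 1 ((sZ ^ 6 * ModularCurve.dedekindEtaUnitInv).map (Int.castRingHom ℂ))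
      (fun z => s z ^ 6 / ModularForm.discriminant z * qq 1 z ^ 1) := by
  have h := (hrep.pow 6).mul rep_q_div_disc
  rw [map_mul, map_pow]
  refine h.congr fun z => ?_
  rw [pow_one]
  ring

/-- **`s ^ 6 / Δ` reduces mod `2` to something integral over `𝔽₂[j̄]`.**  `N` odd, `s` of weight
`2` on `Γ₀(N)` with integral `q`-expansion `sZ`. -/
theorem isIntegral_serR_of_isMF {N : ℕ} [NeZero N] (hN : ¬ 2 ∣ N) {s : ℍ → ℂ}
    (hs : Fermat.Agent.S20.IsMF N 2 s) (sZ : PowerSeries ℤ) (hrep : Rep 1 (toC sZ) s) :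
    IsIntegral (Algebra.adjoin (ZMod 2) ({jqModC (ZMod 2)} : Set (LaurentSeries (ZMod 2))))
      (serR 1 ((sZ ^ 6 * ModularCurve.dedekindEtaUnitInv).map (Int.castRingHom (ZMod 2)))) := by
  obtain ⟨b, -, hb2⟩ := exists_chart_of_isModFun_int 2 hN (isModFun_sixth hs) 1
    (sZ ^ 6 * ModularCurve.dedekindEtaUnitInv) (rep_sixth sZ hrep)
  have := Fermat.Agent.S16.ChartQExpInt.ρB_isIntegral N 2 hN b
  rw [hb2] at this
  exact this

/-! ### The arithmetic of `s = (G - u B) / 4` -/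

/-- if `a 0 = u` is odd and `8 ∣ a n` for `n ≥ 1`, then `∑ a n qⁿ - u (1 + 12 b)` is `4` times an
integral series congruent to `b` mod `2` (for `b` without constant term). -/
theorem exists_quarter (a : ℕ → ℤ) (h0 : Odd (a 0)) (h8 : ∀ n, 1 ≤ n → (8 : ℤ) ∣ a n)
    (bZ : PowerSeries ℤ) (hb0 : PowerSeries.constantCoeff bZ = 0) :
    ∃ sZ : PowerSeries ℤ,
      PowerSeries.C (4 : ℤ) * sZ = PowerSeries.mk a - PowerSeries.C (a 0) * (1 + 12 * bZ) ∧
      sZ.map (Int.castRingHom (ZMod 2)) = bZ.map (Int.castRingHom (ZMod 2)) := by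
  classical
  choose c hc using fun n : ℕ => fun h : 1 ≤ n => h8 n h
  refine ⟨PowerSeries.mk fun n => if h : 1 ≤ n then 2 * c n h - 3 * a 0 * PowerSeries.coeff n bZ
    else 0, ?_, ?_⟩
  · ext n
    have h12 : PowerSeries.coeff n ((12 : PowerSeries ℤ) * bZ) = 12 * PowerSeries.coeff n bZ := by
      have : (12 : PowerSeries ℤ) = PowerSeries.C (12 : ℤ) := by simp
      rw [this, PowerSeries.coeff_C_mul]
    rw [PowerSeries.coeff_C_mul, PowerSeries.coeff_mk, map_sub, PowerSeries.coeff_mk,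
      PowerSeries.coeff_C_mul, map_add, h12, PowerSeries.coeff_one]
    by_cases h : 1 ≤ n
    · rw [dif_pos h, if_neg (by omega), hc n h]
      ring
    · have hn : n = 0 := by omega
      subst hn
      have : PowerSeries.coeff 0 bZ = 0 := by
        rw [PowerSeries.coeff_zero_eq_constantCoeff_apply, hb0]
      rw [dif_neg h, if_pos rfl, this]
      ring
  · ext n
    rw [PowerSeries.coeff_map, PowerSeries.coeff_map, PowerSeries.coeff_mk]
    by_cases h : 1 ≤ n
    · rw [dif_pos h]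
      obtain ⟨t, ht⟩ := h0
      rw [ht]
      have h2 : ((2 : ℤ) : ZMod 2) = 0 := by decide
      simp only [eq_intCast]
      push_cast
      have h2' : (2 : ZMod 2) = 0 := by decide
      have h3 : (3 : ZMod 2) = 1 := by decide
      rw [h2', h3]
      ring_nf
      have : ∀ y : ZMod 2, -y = y := by decide
      rw [this]
    · have hn : n = 0 := by omega
      subst hn
      have : PowerSeries.coeff 0 bZ = 0 := by
        rw [PowerSeries.coeff_zero_eq_constantCoeff_apply, hb0]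
      rw [dif_neg h, this]

/-- **The consumer form.**  `N` odd, `G` and `B` of weight `2` on `Γ₀(N)`, `G = ∑ a n qⁿ` with
`a 0` odd and `8 ∣ a n` (`n ≥ 1`), `B = 1 + 12 b` with `b ∈ q ℤ[[q]]`: then
`q⁻¹ b̄⁶ (Δ / q)⁻¹` (the reduction mod `2` of `((G - a₀ B) / 4)⁶ / Δ`) is integral over
`𝔽₂[j̄]`. -/
theorem isIntegral_of_odd_mod_eight {N : ℕ} [NeZero N] (hN : ¬ 2 ∣ N) {G B : ℍ → ℂ}
    (hG : Fermat.Agent.S20.IsMF N 2 G) (hB : Fermat.Agent.S20.IsMF N 2 B)
    (a : ℕ → ℤ) (ha : ∀ n, ModularFormClass.qCoeff G n = (a n : ℂ)) (h0 : Odd (a 0))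
    (h8 : ∀ n, 1 ≤ n → (8 : ℤ) ∣ a n)
    (bZ : PowerSeries ℤ) (hb0 : PowerSeries.constantCoeff bZ = 0)
    (hrepB : Rep 1 (toC (1 + 12 * bZ)) B) :
    IsIntegral (Algebra.adjoin (ZMod 2) ({jqModC (ZMod 2)} : Set (LaurentSeries (ZMod 2))))
      (serR 1 ((bZ.map (Int.castRingHom (ZMod 2))) ^ 6 *
        ModularCurve.dedekindEtaUnitInv.map (Int.castRingHom (ZMod 2)))) := by
  obtain ⟨sZ, h4, hred⟩ := exists_quarter a h0 h8 bZ hb0
  set s : ℍ → ℂ := (1 / 4 : ℂ) • (G + (-(a 0 : ℂ)) • B) with hsdef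
  have hs : Fermat.Agent.S20.IsMF N 2 s := (hG.add (hB.smul _)).smul _
  have hrepG := rep_of_qCoeff hG a ha
  have hrep : Rep 1 (toC sZ) s := by
    have h1 : Rep 1 (toC (PowerSeries.mk a) - PowerSeries.C ((a 0 : ℤ) : ℂ) * toC (1 + 12 * bZ))
        (G - fun z => ((a 0 : ℤ) : ℂ) * B z) := hrepG.sub (hrepB.const_mul _)
    have e1 : toC (PowerSeries.mk a) - PowerSeries.C ((a 0 : ℤ) : ℂ) * toC (1 + 12 * bZ) =
        PowerSeries.C (4 : ℂ) * toC sZ := by
      have := congrArg (PowerSeries.map (Int.castRingHom ℂ)) h4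
      rw [map_mul, map_sub, map_mul, PowerSeries.map_C, PowerSeries.map_C] at this
      simpa [toC] using this.symm
    rw [e1] at h1
    have h2 := h1.const_mul (1 / 4 : ℂ)
    rw [← mul_assoc, ← map_mul] at h2
    have e2 : (1 / 4 : ℂ) * 4 = 1 := by norm_num
    rw [e2, map_one, one_mul] at h2
    refine h2.congr fun z => ?_
    simp only [hsdef, Pi.smul_apply, Pi.add_apply, Pi.sub_apply, smul_eq_mul]
    ring
  have := isIntegral_serR_of_isMF hN hs sZ hrep
  rwa [map_mul, map_pow, hred] at this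

end

end Fermat.Agent.S16.Two.ChartSixth
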