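import Mathlib

set_option autoImplicit false

/-!
# S16, section (D'): the degree lemma

If `b` is transcendental over a field `k`, `J * (b (1+b)^3) = 1` and `Y * (1+b)^3 = b^5`,
then `Y` is not integral over `k[J]`.  (At `b = ∞` the function `J` vanishes but `Y` has a pole.)
-/

namespace Fermat.Agent.S16.Two

open Polynomial

section Degree

variable {k : Type*} [Field k]

/-- `U = X (1+X)^3`. -/
noncomputable def polyU (k : Type*) [Field k] : k[X] := X * (1 + X) ^ 3

/-- `V = (1+X)^3`. -/
noncomputable def polyV (k : Type*) [Field k] : k[X] := (1 + X) ^ 3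

theorem monic_one_add_X : (1 + X : k[X]).Monic := by
  rw [add_comm]; exact monic_X_add_C 1

theorem natDegree_one_add_X : (1 + X : k[X]).natDegree = 1 := by
  rw [add_comm]; exact natDegree_X_add_C 1

theorem monic_polyV : (polyV k).Monic := monic_one_add_X.pow 3

theorem natDegree_polyV : (polyV k).natDegree = 3 := by
  rw [polyV, monic_one_add_X.natDegree_pow, natDegree_one_add_X]

theorem monic_polyU : (polyU k).Monic := by
  show (X * polyV k).Monic
  exact monic_X.mul monic_polyV

theorem natDegree_polyU : (polyU k).natDegree = 4 := by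
  show (X * polyV k).natDegree = 4
  rw [monic_X.natDegree_mul monic_polyV, natDegree_X, natDegree_polyV]

variable {R : Type*} [CommRing R] [Algebra k R]

theorem reflect_reflect (d : ℕ) (c : k[X]) : reflect d (reflect d c) = c := by
  ext i
  rw [coeff_reflect, coeff_reflect, revAt_invol]

theorem aeval_mul_pow_eq_aeval_reflect (J u : R) (hJu : J * u = 1) (c : k[X]) (d : ℕ)
    (hc : c.natDegree ≤ d) : aeval J c * u ^ d = aeval u (c.reflect d) := by
  let _ : Invertible u := ⟨J, hJu, by rw [mul_comm]; exact hJu⟩
  have h := eval₂_reflect_mul_pow (algebraMap k R) u d (c.reflect d)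
    (natDegree_reflect_le.trans (by simp [hc]))
  rw [reflect_reflect] at h
  exact h

/-- The key non-integrality statement. -/
theorem not_isIntegral_of_rel (b J Y : R) (hb : Transcendental k b)
    (hJ : J * (b * (1 + b) ^ 3) = 1) (hY : Y * (1 + b) ^ 3 = b ^ 5) :
    ¬ IsIntegral (Algebra.adjoin k {J}) Y := by
  rintro ⟨P, hPm, hP⟩
  -- `u = U(b)`, `v = V(b)`
  have hvV : aeval b (polyV k) = (1 + b) ^ 3 := by simp [polyV]
  have huU : aeval b (polyU k) = b * (1 + b) ^ 3 := by simp [polyU]
  set v : R := (1 + b) ^ 3 with hv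
  set u : R := b * v with hu
  set m := P.natDegree with hm
  -- choose polynomial representatives of the coefficients
  have hex : ∀ i : ℕ, ∃ c : k[X], aeval J c = ((P.coeff i : Algebra.adjoin k {J}) : R) := by
    intro i
    have hmem : ((P.coeff i : Algebra.adjoin k {J}) : R) ∈ (aeval J : k[X] →ₐ[k] R).range := by
      rw [← Algebra.adjoin_singleton_eq_range_aeval]; exact (P.coeff i).2
    obtain ⟨c, hc⟩ := hmem
    exact ⟨c, hc⟩
  choose c0 hc0 using hex
  -- normalise the top one to `1`
  let c : ℕ → k[X] := fun i => if i = m then 1 else c0 i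
  have hc : ∀ i, aeval J (c i) = ((P.coeff i : Algebra.adjoin k {J}) : R) := by
    intro i
    by_cases hi : i = m
    · subst hi
      simp only [c, if_true, map_one]
      rw [hm, hPm.coeff_natDegree]; rfl
    · simp only [c, if_neg hi]; exact hc0 i
  have hcm : c m = 1 := by simp [c]
  -- common degree bound
  obtain ⟨d, hd⟩ : ∃ d : ℕ, ∀ i ∈ Finset.range (m + 1), (c i).natDegree ≤ d :=
    ⟨(Finset.range (m + 1)).sup fun i => (c i).natDegree, fun i hi =>
      Finset.le_sup (f := fun i => (c i).natDegree) hi⟩
  -- the relation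
  have hrel : ∑ i ∈ Finset.range (m + 1), aeval J (c i) * Y ^ i = 0 := by
    have h0 : eval₂ (algebraMap (Algebra.adjoin k {J}) R) Y P = 0 := hP
    rw [eval₂_eq_sum_range] at h0
    rw [← h0]
    refine Finset.sum_congr rfl fun i _ => ?_
    rw [hc i]; rfl
  -- the polynomial relation
  let Q : ℕ → k[X] := fun i => ((c i).reflect d).comp (polyU k) * (X ^ (5 * i) * (polyV k) ^ (m - i))
  have hQ : ∀ i ∈ Finset.range (m + 1),
      aeval b (Q i) = (aeval J (c i) * Y ^ i) * (u ^ d * v ^ m) := by
    intro i hi
    have him : i ≤ m := Nat.lt_succ_iff.mp (Finset.mem_range.mp hi)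
    have h1 : aeval J (c i) * u ^ d = aeval u ((c i).reflect d) :=
      aeval_mul_pow_eq_aeval_reflect J u hJ (c i) d (hd i hi)
    have h2 : Y ^ i * v ^ m = b ^ (5 * i) * v ^ (m - i) := by
      have : v ^ m = v ^ i * v ^ (m - i) := by rw [← pow_add, Nat.add_sub_cancel' him]
      rw [this, ← mul_assoc, ← mul_pow, hY, ← pow_mul]
    simp only [Q, map_mul, map_pow, aeval_X, aeval_comp, huU, hvV]
    rw [← h1, ← h2]; ring
  have hzero : aeval b (∑ i ∈ Finset.range (m + 1), Q i) = 0 := by
    rw [map_sum, Finset.sum_congr rfl hQ, ← Finset.sum_mul, hrel, zero_mul]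
  have hPi : ∑ i ∈ Finset.range (m + 1), Q i = 0 := by
    by_contra hne
    exact hb ⟨∑ i ∈ Finset.range (m + 1), Q i, hne, hzero⟩
  -- look at the coefficient of degree `4 d + 5 m`
  have hcoeff := congrArg (fun q : k[X] => q.coeff (4 * d + 5 * m)) hPi
  simp only [finsetSum_coeff, coeff_zero] at hcoeff
  rw [Finset.sum_range_succ] at hcoeff
  have hlow : ∀ i ∈ Finset.range m, (Q i).coeff (4 * d + 5 * m) = 0 := by
    intro i hi
    have him : i < m := Finset.mem_range.mp hi
    apply coeff_eq_zero_of_natDegree_lt
    have hA : (((c i).reflect d).comp (polyU k)).natDegree ≤ 4 * d := by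
      rw [natDegree_comp, natDegree_polyU]
      have : ((c i).reflect d).natDegree ≤ d :=
        natDegree_reflect_le.trans (by simp [hd i (Finset.mem_range.mpr (by omega))])
      nlinarith
    have hB : (X ^ (5 * i) * (polyV k) ^ (m - i) : k[X]).natDegree = 5 * i + 3 * (m - i) := by
      rw [(monic_X_pow (5 * i)).natDegree_mul (monic_polyV.pow (m - i)), natDegree_X_pow,
        monic_polyV.natDegree_pow, natDegree_polyV]
      ring
    calc (Q i).natDegree ≤ (((c i).reflect d).comp (polyU k)).natDegree
          + (X ^ (5 * i) * (polyV k) ^ (m - i) : k[X]).natDegree := natDegree_mul_le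
      _ ≤ 4 * d + (5 * i + 3 * (m - i)) := by rw [hB]; omega
      _ < 4 * d + 5 * m := by omega
  rw [Finset.sum_eq_zero hlow, zero_add] at hcoeff
  -- the top term is monic of that degree
  have htop : (Q m).Monic ∧ (Q m).natDegree = 4 * d + 5 * m := by
    have hQm : Q m = (polyU k) ^ d * X ^ (5 * m) := by
      simp only [Q, hcm, Nat.sub_self, pow_zero, mul_one]
      rw [show (1 : k[X]) = C 1 from rfl, reflect_C, C_1, one_mul, X_pow_comp]
    rw [hQm]
    refine ⟨(monic_polyU.pow d).mul (monic_X_pow _), ?_⟩
    rw [(monic_polyU.pow d).natDegree_mul (monic_X_pow _), monic_polyU.natDegree_pow,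
      natDegree_polyU, natDegree_X_pow]
    ring
  have h1 : (Q m).coeff (4 * d + 5 * m) = 1 := by
    rw [← htop.2]; exact htop.1.coeff_natDegree
  rw [h1] at hcoeff
  exact one_ne_zero hcoeff

end Degree

section Transc

variable {k : Type*} [Field k]

/-- A nonzero power series without constant term is transcendental over the base field
(an algebraic nonzero element of a `k`-domain divides a nonzero constant, hence is a unit). -/
theorem transcendental_powerSeries (f : PowerSeries k)
    (h0 : PowerSeries.constantCoeff f = 0) (hf : f ≠ 0) : Transcendental k f := by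
  intro halg
  obtain ⟨r, hr, hdvd⟩ := halg.exists_nonzero_dvd (mem_nonZeroDivisors_of_ne_zero hf)
  have hu : IsUnit (algebraMap k (PowerSeries k) r) := (IsUnit.mk0 r hr).map _
  have hfu : IsUnit f := isUnit_of_dvd_unit hdvd hu
  rw [PowerSeries.isUnit_iff_constantCoeff, h0] at hfu
  exact not_isUnit_zero hfu

/-- The same inside Laurent series, for ANY `k`-algebra structure on `k((q))` whose structure map
is `HahnSeries.C` (Mathlib has two non-defeq instances, `HahnSeries.instAlgebra` and
`HahnSeries.powerSeriesAlgebra`; both satisfy `hC`, see below). -/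
theorem transcendental_ofPowerSeries_of_algebraMap [Algebra k (LaurentSeries k)]
    (hC : ∀ r : k, algebraMap k (LaurentSeries k) r = HahnSeries.C r) (f : PowerSeries k)
    (h0 : PowerSeries.constantCoeff f = 0) (hf : f ≠ 0) :
    Transcendental k (HahnSeries.ofPowerSeries ℤ k f) := by
  rintro ⟨p, hp0, hp⟩
  apply transcendental_powerSeries f h0 hf
  refine ⟨p, hp0, ?_⟩
  apply HahnSeries.ofPowerSeries_injective (Γ := ℤ)
  rw [map_zero, ← hp, Polynomial.aeval_def, Polynomial.aeval_def, Polynomial.hom_eval₂]
  congr 1
  ext1 r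
  rw [hC]
  simp

/-- the default instance (with `import Mathlib`) -/
theorem transcendental_ofPowerSeries (f : PowerSeries k)
    (h0 : PowerSeries.constantCoeff f = 0) (hf : f ≠ 0) :
    Transcendental k (HahnSeries.ofPowerSeries ℤ k f) :=
  transcendental_ofPowerSeries_of_algebraMap (fun r => by
    rw [HahnSeries.algebraMap_apply']; simp) f h0 hf

/-- the instance `HahnSeries.instAlgebra` -/
theorem transcendental_ofPowerSeries_instAlgebra (f : PowerSeries k)
    (h0 : PowerSeries.constantCoeff f = 0) (hf : f ≠ 0) :
    @Transcendental k (LaurentSeries k) _ _ HahnSeries.instAlgebra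
      (HahnSeries.ofPowerSeries ℤ k f) :=
  @transcendental_ofPowerSeries_of_algebraMap k _ HahnSeries.instAlgebra (fun r => by
    rw [HahnSeries.algebraMap_apply]; simp) f h0 hf

end Transc

end Fermat.Agent.S16.Two
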