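import Mathlib
import Fermat.Prelude.Def_ModularCurve_JqCoeff
import Fermat.Agent.S16.Two.Defs
import Fermat.Agent.S16.Two.DegreeLemma

set_option autoImplicit false

/-!
# S16, section (D'): the relations in `𝔽₂((q))` and the non-integrality of `x̄`

With `b = b̄`, `J = j̄ = jqModC (ZMod 2)` and `x̄ = q⁻¹ b̄⁶ η̄⁻²⁴` (the reduction of `s⁶/Δ`), the
level-3 identity `I3Series` gives `J · b (1+b)³ = 1` and `x̄ · (1+b)³ = b⁵`, so by the degree lemma
`x̄` is not integral over `𝔽₂[j̄]`.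
-/

namespace Fermat.Agent.S16.Two

open PowerSeries

noncomputable section

/-- `η̄²⁴ = ∏ (1 - qⁿ)²⁴ mod 2` -/
def etaBar : PowerSeries (ZMod 2) := red2 ModularCurve.dedekindEtaUnit

/-- `η̄⁻²⁴` -/
def etaInvBar : PowerSeries (ZMod 2) := red2 ModularCurve.dedekindEtaUnitInv

theorem etaBar_mul_etaInvBar : etaBar * etaInvBar = 1 := by
  rw [etaBar, etaInvBar, ← map_mul, ModularCurve.dedekindEtaUnit_mul_inv, map_one]

/-- `b̄` as a Laurent series -/
def bL : LaurentSeries (ZMod 2) := HahnSeries.ofPowerSeries ℤ (ZMod 2) bbar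

/-- the reduction `q⁻¹ b̄⁶ η̄⁻²⁴` of `s⁶ / Δ` -/
def xbar : LaurentSeries (ZMod 2) :=
  HahnSeries.single (-1 : ℤ) (1 : ZMod 2) *
    HahnSeries.ofPowerSeries ℤ (ZMod 2) (bbar ^ 6 * etaInvBar)

theorem red2_eisenstein4 : red2 ModularCurve.eisenstein4 = 1 := by
  rw [eisenstein4_eq, map_add, map_one, map_mul]
  have : red2 (240 : PowerSeries ℤ) = 0 := by
    have := red2_ofNat_even 240 (by decide); simpa using this
  rw [this, zero_mul, add_zero]

theorem jqModC_two :
    ModularCurve.jqModC (ZMod 2) =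
      HahnSeries.single (-1 : ℤ) (1 : ZMod 2) * HahnSeries.ofPowerSeries ℤ (ZMod 2) etaInvBar := by
  rw [ModularCurve.jqModC, ModularCurve.jNum]
  congr 2
  show red2 (ModularCurve.eisenstein4 ^ 3 * ModularCurve.dedekindEtaUnitInv) = etaInvBar
  rw [map_mul, map_pow, red2_eisenstein4, one_pow, one_mul, etaInvBar]

theorem single_neg_one_mul_ofPowerSeries_X :
    HahnSeries.single (-1 : ℤ) (1 : ZMod 2) * HahnSeries.ofPowerSeries ℤ (ZMod 2) X = 1 := by
  rw [HahnSeries.ofPowerSeries_X, HahnSeries.single_mul_single]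
  simp

theorem red2_DeltaZ : red2 DeltaZ = X * etaBar := by
  rw [DeltaZ, map_mul, PowerSeries.map_X, etaBar]

theorem one_add_bL : (1 + bL) = HahnSeries.ofPowerSeries ℤ (ZMod 2) (1 + bbar) := by
  rw [map_add, map_one, bL]

/-- `b (1+b)³ = Δ̄` -/
theorem bL_mul (h : I3Series) :
    bL * (1 + bL) ^ 3 = HahnSeries.ofPowerSeries ℤ (ZMod 2) (X * etaBar) := by
  rw [one_add_bL, bL, ← map_pow, ← map_mul, ← h.deltaBar, red2_DeltaZ]

theorem rel_J (h : I3Series) : ModularCurve.jqModC (ZMod 2) * (bL * (1 + bL) ^ 3) = 1 := by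
  rw [bL_mul h, jqModC_two, mul_assoc, ← map_mul,
    show etaInvBar * (X * etaBar) = X * (etaBar * etaInvBar) by ring,
    etaBar_mul_etaInvBar, mul_one, single_neg_one_mul_ofPowerSeries_X]

theorem bL_ne_zero : bL ≠ 0 := by
  intro h0
  apply bbar_ne_zero
  apply HahnSeries.ofPowerSeries_injective (Γ := ℤ)
  rw [map_zero]; exact h0

theorem rel_Y (h : I3Series) : xbar * (1 + bL) ^ 3 = bL ^ 5 := by
  apply mul_right_cancel₀ bL_ne_zero
  have h1 : xbar * (1 + bL) ^ 3 * bL = xbar * (bL * (1 + bL) ^ 3) := by ring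
  rw [h1, bL_mul h, xbar, mul_assoc, ← map_mul,
    show bbar ^ 6 * etaInvBar * (X * etaBar) = X * bbar ^ 6 * (etaBar * etaInvBar) by ring,
    etaBar_mul_etaInvBar, mul_one, map_mul, ← mul_assoc, single_neg_one_mul_ofPowerSeries_X,
    one_mul, map_pow, ← bL]
  ring

/-- `b̄` is transcendental over `𝔽₂`, for any algebra structure with structure map `C`. -/
theorem transcendental_bL [Algebra (ZMod 2) (LaurentSeries (ZMod 2))]
    (hC : ∀ r : ZMod 2, algebraMap (ZMod 2) (LaurentSeries (ZMod 2)) r = HahnSeries.C r) :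
    Transcendental (ZMod 2) bL :=
  transcendental_ofPowerSeries_of_algebraMap hC bbar constantCoeff_bbar bbar_ne_zero

/-- **`x̄` is not integral over `𝔽₂[j̄]`** (any algebra structure with structure map `C`). -/
theorem not_isIntegral_xbar_of_algebraMap [Algebra (ZMod 2) (LaurentSeries (ZMod 2))]
    (hC : ∀ r : ZMod 2, algebraMap (ZMod 2) (LaurentSeries (ZMod 2)) r = HahnSeries.C r)
    (h : I3Series) :
    ¬ IsIntegral (Algebra.adjoin (ZMod 2) {ModularCurve.jqModC (ZMod 2)}) xbar :=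
  not_isIntegral_of_rel bL (ModularCurve.jqModC (ZMod 2)) xbar (transcendental_bL hC)
    (rel_J h) (rel_Y h)

/-- **`x̄` is not integral over `𝔽₂[j̄]`** (default instance). -/
theorem not_isIntegral_xbar (h : I3Series) :
    ¬ IsIntegral (Algebra.adjoin (ZMod 2) {ModularCurve.jqModC (ZMod 2)}) xbar :=
  not_isIntegral_xbar_of_algebraMap (fun r => by
    rw [HahnSeries.algebraMap_apply']; simp) h

end

end Fermat.Agent.S16.Two
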