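import Mathlib
import Fermat.Agent.S16.Two.ChartSixth
import Fermat.Agent.S16.Two.SeriesRel
import Fermat.Agent.S16.Two.Reps

set_option autoImplicit false

/-!
# S16 (D'), component 4b: no form `G ∈ M₂(Γ₀(p))` with `a₀` odd and `8 ∣ aₙ` (`n ≥ 1`),
given the level-3 identity `I3Series`

Assembly of `ChartSixth.isIntegral_of_odd_mod_eight` (bridge side: the reduction mod `2` of
`((G - a₀ B)/4)⁶ / Δ` is integral over `𝔽₂[j̄]`) at level `3p` with `B = B3 = 12 E*₃` and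
`SeriesRel.not_isIntegral_xbar` (series side: `x̄ = q⁻¹ b̄⁶ η̄⁻²⁴` is not integral over `𝔽₂[j̄]`).
-/

namespace Fermat.Agent.S16.Two

open UpperHalfPlane
open Fermat.Agent.S24.JPoly (qq Rep)
open Fermat.Agent.S24.EtaBridge (toC)

/-- `3 p` is odd for a prime `p ≥ 5`. -/
theorem not_two_dvd_three_mul {p : ℕ} (hp : p.Prime) (hp5 : 5 ≤ p) : ¬ 2 ∣ 3 * p := by
  intro h
  rcases (Nat.Prime.dvd_mul Nat.prime_two).mp h with h3 | h2
  · omega
  · have := (Nat.prime_dvd_prime_iff_eq Nat.prime_two hp).mp h2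
    omega

/-- **(D') given the level-3 identity.** -/
theorem no_odd_mod_eight_of_I3Series (h3 : I3Series) (p : ℕ) [Fact p.Prime] (hp : 5 ≤ p)
    (G : ℍ → ℂ) (hG : Fermat.Agent.S20.IsMF p 2 G) (a : ℕ → ℤ)
    (ha : ∀ n, ModularFormClass.qCoeff G n = (a n : ℂ)) (h0 : Odd (a 0))
    (h8 : ∀ n, 1 ≤ n → (8 : ℤ) ∣ a n) : False := by
  have hpp : p.Prime := Fact.out
  have : NeZero (3 * p) := ⟨Nat.mul_ne_zero (by norm_num) hpp.ne_zero⟩
  have hN : ¬ 2 ∣ 3 * p := not_two_dvd_three_mul hpp hp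
  have hG' : Fermat.Agent.S20.IsMF (3 * p) 2 G :=
    Fermat.Agent.S16.Bridge.isMF_of_dvd (Dvd.intro_left 3 rfl) hG
  have hB' : Fermat.Agent.S20.IsMF (3 * p) 2 B3 :=
    Fermat.Agent.S16.Bridge.isMF_of_dvd (Dvd.intro p rfl) isMF_B3
  have key := ChartSixth.isIntegral_of_odd_mod_eight hN hG' hB' a ha h0 h8 bZ constantCoeff_bZ
    rep_B3
  apply not_isIntegral_xbar h3
  have e : Fermat.Agent.S16.Bridge.Chart.serR 1
      ((PowerSeries.map (Int.castRingHom (ZMod 2))) bZ ^ 6 *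
        (PowerSeries.map (Int.castRingHom (ZMod 2))) ModularCurve.dedekindEtaUnitInv) = xbar := by
    unfold Fermat.Agent.S16.Bridge.Chart.serR xbar etaInvBar bbar red2
    norm_num
  rw [e] at key
  exact key

end Fermat.Agent.S16.Two
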