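import Mathlib
import Fermat.Agent.S16.Two.MainI3
import Fermat.Agent.S16.Two.Level3

set_option autoImplicit false

/-!
# S16 (D'): no `G ∈ M₂(Γ₀(p))` with integral `q`-expansion, `a₀` odd and `8 ∣ aₙ` for `n ≥ 1`

`no_odd_mod_eight_of_I3Series` (bridge + series side, `Two/MainI3.lean`) applied to the level-3
identity `i3Series` (`Two/Level3.lean`).
-/

namespace Fermat.Agent.S16.Two

open UpperHalfPlane

/-- **(D')**: for a prime `p ≥ 5` there is no modular form `G` of weight `2` on `Γ₀(p)` whose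
`q`-expansion has integer coefficients `a n` with `a 0` odd and `8 ∣ a n` for all `n ≥ 1`. -/
theorem no_odd_mod_eight (p : ℕ) [Fact p.Prime] (hp : 5 ≤ p) (G : ℍ → ℂ)
    (hG : Fermat.Agent.S20.IsMF p 2 G) (a : ℕ → ℤ)
    (ha : ∀ n, ModularFormClass.qCoeff G n = (a n : ℂ)) (h0 : Odd (a 0))
    (h8 : ∀ n, 1 ≤ n → (8 : ℤ) ∣ a n) : False :=
  no_odd_mod_eight_of_I3Series i3Series p hp G hG a ha h0 h8

end Fermat.Agent.S16.Two
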